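import Fermat.Agent.FunctionFieldRank.TwoClass
import Fermat.Agent.FunctionFieldRank.Descent
import Fermat.Agent.Frob.VarChange
import Mathlib.NumberTheory.Padics.Hensel
import Mathlib.NumberTheory.Padics.RingHoms
import Mathlib.NumberTheory.LegendreSymbol.Basic

/-!
# Quadratic classes at a prime and the independence they detect

For a simple root `θ` modulo an odd prime `p` of the cubic of `Y² = X³ + A X² + B X + C`, the
quadratic character of `X - θ` is a homomorphism from the rational points to `ZMod 2`.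
-/

set_option autoImplicit false
set_option linter.unusedSectionVars false
set_option linter.style.haveILetI false

noncomputable section

open WeierstrassCurve Polynomial
open FA.CM.Seven (twoCurve twoCurve_equation)
open FA.FunctionFieldRank (IsParity classHom classFun classFun_some pointMap pointMap_some)
open scoped Classical

namespace FA.MestreRank

/-- The decision procedure with which the point maps are built. -/
@[instance_reducible] def ratDecEq : DecidableEq ℚ := fun a b => Classical.propDecidable (a = b)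

attribute [local instance 2000] ratDecEq

variable {p : ℕ} [Fact p.Prime]

/-- The quadratic character with values in `ZMod 2`. -/
def bit (z : ZMod p) : ZMod 2 := if z ^ (p / 2) = 1 then 0 else 1

theorem bit_mul (hp : p ≠ 2) {y z : ZMod p} (hy : y ≠ 0) (hz : z ≠ 0) :
    bit (y * z) = bit y + bit z := by
  haveI : Fact (2 < p) := ⟨lt_of_le_of_ne (Fact.out : p.Prime).two_le (Ne.symm hp)⟩
  have hne : (-1 : ZMod p) ≠ 1 := ZMod.neg_one_ne_one
  unfold bit
  rw [mul_pow]
  rcases ZMod.pow_div_two_eq_neg_one_or_one p hy with e | e <;>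
    rcases ZMod.pow_div_two_eq_neg_one_or_one p hz with e' | e' <;> simp [e, e', hne, CharTwo.add_self_eq_zero]

theorem toZMod_eq_zero_iff {z : ℤ_[p]} : PadicInt.toZMod z = 0 ↔ ‖z‖ < 1 := by
  rw [← RingHom.mem_ker, PadicInt.ker_toZMod, PadicInt.maximalIdeal_eq_span_p,
    Ideal.mem_span_singleton, PadicInt.norm_lt_one_iff_dvd]

theorem norm_unitPart {x : ℚ_[p]} (hx : x ≠ 0) : ‖x * (p : ℚ_[p]) ^ (-x.valuation)‖ = 1 := by
  have hp0 : (p : ℝ) ≠ 0 := Nat.cast_ne_zero.2 (Fact.out : p.Prime).ne_zero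
  rw [norm_mul, norm_zpow, Padic.norm_p, Padic.norm_eq_zpow_neg_valuation hx, inv_zpow', neg_neg,
    ← zpow_add₀ hp0, neg_add_cancel, zpow_zero]

/-- The unit part. -/
def unitPart (x : ℚ_[p]) : ℤ_[p] :=
  ⟨if x = 0 then 0 else x * (p : ℚ_[p]) ^ (-x.valuation), by
    split_ifs with h
    · simp
    · exact (norm_unitPart h).le⟩

theorem coe_unitPart {x : ℚ_[p]} (hx : x ≠ 0) :
    (unitPart x : ℚ_[p]) = x * (p : ℚ_[p]) ^ (-x.valuation) := if_neg hx

theorem toZMod_unitPart_ne {x : ℚ_[p]} (hx : x ≠ 0) : PadicInt.toZMod (unitPart x) ≠ 0 := by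
  rw [Ne, toZMod_eq_zero_iff, PadicInt.norm_def, coe_unitPart hx, norm_unitPart hx]
  exact lt_irrefl _

/-- The class of a `p`-adic number: the quadratic character of its unit part. -/
def localClass (x : ℚ_[p]) : ZMod 2 := bit (PadicInt.toZMod (unitPart x))

theorem unitPart_mul {x y : ℚ_[p]} (hx : x ≠ 0) (hy : y ≠ 0) :
    unitPart (x * y) = unitPart x * unitPart y := by
  apply Subtype.ext
  rw [PadicInt.coe_mul, coe_unitPart (mul_ne_zero hx hy), coe_unitPart hx, coe_unitPart hy,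
    Padic.valuation_mul hx hy, neg_add,
    zpow_add₀ (Nat.cast_ne_zero.2 (Fact.out : p.Prime).ne_zero)]
  ring

theorem isParity_localClass (hp : p ≠ 2) : IsParity (localClass (p := p)) := fun x y hx hy => by
  rw [localClass, unitPart_mul hx hy, map_mul,
    bit_mul hp (toZMod_unitPart_ne hx) (toZMod_unitPart_ne hy)]
  rfl

theorem localClass_coe {z : ℤ_[p]} (hz : PadicInt.toZMod z ≠ 0) :
    localClass (z : ℚ_[p]) = bit (PadicInt.toZMod z) := by
  have hn : ‖(z : ℚ_[p])‖ = 1 :=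
    le_antisymm z.2 (not_lt.1 fun h => hz (toZMod_eq_zero_iff.2 (by rwa [PadicInt.norm_def])))
  have h0 : (z : ℚ_[p]) ≠ 0 := norm_ne_zero_iff.1 (by rw [hn]; exact one_ne_zero)
  have hv : (z : ℚ_[p]).valuation = 0 := by
    have h := Padic.norm_eq_zpow_neg_valuation h0
    rw [hn, eq_comm, zpow_eq_one_iff_right₀ (Nat.cast_nonneg _)
      (Nat.cast_ne_one.2 (Fact.out : p.Prime).ne_one)] at h
    exact neg_eq_zero.1 h
  rw [localClass]
  congr 2
  exact Subtype.ext (by rw [coe_unitPart h0, hv, neg_zero, zpow_zero, mul_one])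

/-- A simple root modulo `p` lifts. -/
theorem exists_root {A B C : ℤ} {θ : ZMod p}
    (hf : θ ^ 3 + (A : ZMod p) * θ ^ 2 + (B : ZMod p) * θ + (C : ZMod p) = 0)
    (hd : 3 * θ ^ 2 + 2 * (A : ZMod p) * θ + (B : ZMod p) ≠ 0) :
    ∃ t : ℤ_[p], t ^ 3 + (A : ℤ_[p]) * t ^ 2 + (B : ℤ_[p]) * t + (C : ℤ_[p]) = 0 ∧
      PadicInt.toZMod t = θ := by
  set a : ℤ_[p] := (θ.val : ℤ_[p])
  have ha : PadicInt.toZMod a = θ := by simp [a]
  set F : ℤ_[p][X] := Polynomial.X ^ 3 + Polynomial.C (A : ℤ_[p]) * Polynomial.X ^ 2 +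
    Polynomial.C (B : ℤ_[p]) * Polynomial.X + Polynomial.C (C : ℤ_[p]) with hF
  have e : ∀ t, F.aeval t =
      t ^ 3 + (A : ℤ_[p]) * t ^ 2 + (B : ℤ_[p]) * t + (C : ℤ_[p]) := fun t => by simp [hF]
  have e' : F.derivative.aeval a = 3 * a ^ 2 + 2 * (A : ℤ_[p]) * a + (B : ℤ_[p]) := by
    simp [hF, derivative_pow]; ring
  have h1 : ‖F.derivative.aeval a‖ = 1 :=
    le_antisymm (PadicInt.norm_le_one _) (not_lt.1 fun h => hd (by
      have := toZMod_eq_zero_iff.2 h
      rwa [e', map_add, map_add, map_mul, map_mul, map_mul, map_pow, map_ofNat, map_ofNat, ha,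
        map_intCast, map_intCast] at this))
  obtain ⟨t, ht, hclose, -⟩ := hensels_lemma (F := F) (a := a) (by
    rw [h1, one_pow]
    refine toZMod_eq_zero_iff.1 ?_
    simp [e, ha, hf])
  rw [h1] at hclose
  refine ⟨t, (e t).symm.trans ht, ?_⟩
  rw [← ha, ← sub_eq_zero, ← map_sub, toZMod_eq_zero_iff]
  exact hclose

/-- `Y² = X³ + A X² + B X + C` over `ℚ`. -/
abbrev intCurve (A B C : ℤ) : WeierstrassCurve ℚ := ⟨0, A, 0, B, C⟩

/-- **The class homomorphism of a simple root modulo `p`.** -/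
theorem exists_classHom (hp : p ≠ 2) {A B C : ℤ} [(intCurve A B C).IsElliptic] {θ : ZMod p}
    (hf : θ ^ 3 + (A : ZMod p) * θ ^ 2 + (B : ZMod p) * θ + (C : ZMod p) = 0)
    (hd : 3 * θ ^ 2 + 2 * (A : ZMod p) * θ + (B : ZMod p) ≠ 0) :
    ∃ φ : (intCurve A B C).toAffine.Point →+ ZMod 2, ∀ (N w : ℤ) (y : ℚ)
      (h : (intCurve A B C).toAffine.Nonsingular ((N : ℚ) / (w : ℚ) ^ 2) y),
      (w : ℚ) ≠ 0 → (N : ZMod p) - θ * (w : ZMod p) ^ 2 ≠ 0 →
      φ (.some _ y h) = bit ((N : ZMod p) - θ * (w : ZMod p) ^ 2) := by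
  obtain ⟨t, ht, hθ⟩ := exists_root hf hd
  set g : ℚ →+* ℚ_[p] := algebraMap ℚ ℚ_[p]
  set W : WeierstrassCurve ℚ_[p] := ⟨0, (A : ℚ_[p]), 0, (B : ℚ_[p]), (C : ℚ_[p])⟩
  have hW : (intCurve A B C).map g = W := by ext <;> simp [W, g, WeierstrassCurve.map]
  haveI : W.IsElliptic := hW ▸ inferInstance
  have ht' : (t : ℚ_[p]) ^ 3 + A * (t : ℚ_[p]) ^ 2 + B * (t : ℚ_[p]) + C = 0 := by
    have := congrArg (fun z : ℤ_[p] => (z : ℚ_[p])) ht
    simpa using this
  set V : WeierstrassCurve.VariableChange ℚ_[p] := ⟨1, (t : ℚ_[p]), 0, 0⟩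
  set a : ℚ_[p] := 3 * (t : ℚ_[p]) + A
  set b : ℚ_[p] := 3 * (t : ℚ_[p]) ^ 2 + 2 * A * (t : ℚ_[p]) + B
  have hV : V • W = twoCurve a b := by
    ext <;> simp [V, W, a, b, variableChange_a₁, variableChange_a₂, variableChange_a₃,
      variableChange_a₄, variableChange_a₆]
    · ring
    · ring
    · linear_combination ht'
  haveI : (twoCurve a b).IsElliptic := hV ▸ inferInstance
  have hb : b ≠ 0 := fun h => (twoCurve a b).isUnit_Δ.ne_zero (by
    simp [WeierstrassCurve.Δ, WeierstrassCurve.b₂, WeierstrassCurve.b₄, WeierstrassCurve.b₆,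
      WeierstrassCurve.b₈, h])
  refine ⟨((classHom (isParity_localClass hp) CharTwo.add_self_eq_zero hb).comp
    (FA.Frob.vcEquiv V hV).symm.toAddMonoidHom).comp (pointMap g hW), fun N w y h hw hne => ?_⟩
  have hx : g ((N : ℚ) / (w : ℚ) ^ 2) = (N : ℚ_[p]) / (w : ℚ_[p]) ^ 2 := by simp [g]
  have hwp : (w : ℚ_[p]) ≠ 0 := Int.cast_ne_zero.2 (Int.cast_ne_zero.1 hw)
  set z : ℤ_[p] := (N : ℤ_[p]) - t * (w : ℤ_[p]) ^ 2
  have hz : PadicInt.toZMod z = (N : ZMod p) - θ * (w : ZMod p) ^ 2 := by simp [z, hθ]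
  set x : ℚ_[p] := g ((N : ℚ) / (w : ℚ) ^ 2) - t with hxdef
  have hxz : x * ((w : ℚ_[p]) * (w : ℚ_[p])) = (z : ℚ_[p]) := by
    simp only [hxdef, hx, z]; push_cast; field_simp
  have hx0 : x ≠ 0 := fun h => hne <| by
    rw [← hz, toZMod_eq_zero_iff, PadicInt.norm_def, ← hxz, h, zero_mul, norm_zero]
    exact one_pos
  have hns : (twoCurve a b).toAffine.Nonsingular x (g y) := by
    have hW' : W.toAffine.Nonsingular (g ((N : ℚ) / (w : ℚ) ^ 2)) (g y) :=
      hW ▸ ((intCurve A B C).toAffine.map_nonsingular g.injective _ _).2 h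
    refine Affine.equation_iff_nonsingular.mp ((FA.Frob.equation_vc V hV x (g y)).1 ?_)
    rw [show FA.Frob.vcX V x = g ((N : ℚ) / (w : ℚ) ^ 2) by simp [FA.Frob.vcX, V, hxdef],
      show FA.Frob.vcY V x (g y) = g y by simp [FA.Frob.vcY, V]]
    exact hW'.1
  have e : (FA.Frob.vcEquiv V hV).symm (pointMap g hW (.some _ y h)) = .some x (g y) hns := by
    rw [AddEquiv.symm_apply_eq, pointMap_some, FA.Frob.vcEquiv_some]
    simp [FA.Frob.vcX, FA.Frob.vcY, V, hxdef]
  rw [AddMonoidHom.comp_apply, AddMonoidHom.comp_apply]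
  erw [e]
  change classFun localClass a b (.some x (g y) hns) = _
  rw [classFun_some hx0]
  rw [← hz, ← localClass_coe (hz ▸ hne), ← hxz, isParity_localClass hp hx0 (mul_ne_zero hwp hwp),
    isParity_localClass hp hwp hwp, CharTwo.add_self_eq_zero, add_zero]

/-- A group without elements of order two in which some elements have independent classes modulo
two has these elements independent. -/
theorem linearIndependent_of_classes {G : Type*} [AddCommGroup G] {ι : Type*} [Fintype ι]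
    (h2 : ∀ x : G, 2 • x = 0 → x = 0) (P : ι → G) (φ : ι → (G →+ ZMod 2)) (U : ι → ι → ZMod 2)
    (hU : ∀ i j, ∑ k, U i k * φ k (P j) = if i = j then 1 else 0) : LinearIndependent ℤ P := by
  have key : ∀ (n : ℕ) (c : ι → ℤ), ∑ j, c j • P j = 0 → ∀ i, (2 : ℤ) ^ n ∣ c i := fun n => by
    induction n with
    | zero => exact fun c _ i => by simp
    | succ n ih =>
      intro c hc i
      have he : ∀ i, (2 : ℤ) ∣ c i := fun i => by
        refine (ZMod.intCast_zmod_eq_zero_iff_dvd _ 2).1 ?_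
        have h : ∀ k, ∑ j, (c j : ZMod 2) * φ k (P j) = 0 := fun k => by
          have := congrArg (φ k) hc
          simpa [map_sum, zsmul_eq_mul] using this
        calc (c i : ZMod 2) = ∑ j, (c j : ZMod 2) * ∑ k, U i k * φ k (P j) := by simp [hU]
          _ = ∑ k, U i k * ∑ j, (c j : ZMod 2) * φ k (P j) := by
              simp_rw [Finset.mul_sum]
              rw [Finset.sum_comm]
              simp_rw [mul_left_comm]
          _ = 0 := by simp [h]
      choose d hd using he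
      have := ih d (h2 _ (by
        rw [← natCast_zsmul, Finset.smul_sum, ← hc]
        exact Finset.sum_congr rfl fun j _ => by rw [hd j, mul_zsmul]; rfl)) i
      rw [hd i, pow_succ']
      exact mul_dvd_mul_left 2 this
  rw [Fintype.linearIndependent_iff]
  intro c hc i
  by_contra h0
  have h := Int.natAbs_dvd_natAbs.2 (key (c i).natAbs c hc i)
  rw [Int.natAbs_pow] at h
  exact (Nat.lt_two_pow_self).not_ge (Nat.le_of_dvd (Int.natAbs_pos.2 h0) h)

end FA.MestreRank
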