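import Mathlib.AlgebraicGeometry.EllipticCurve.Weierstrass
import Mathlib.Algebra.BigOperators.Fin
import Mathlib.Data.Fin.VecNotation
import Mathlib.Tactic.Ring
import Mathlib.Tactic.LinearCombination
import Mathlib.Tactic.FinCases

/-!
# Mestre's quartics and their points

The twelve numbers `a` and `a - 2T`, for `a + 11` in `{-17, -16, 10, 11, 14, 17}`, are the roots of
a polynomial which differs from a square by a polynomial of degree four. The resulting quartic
`y² = A x⁴ + B x³ + C x² + D x + E²` has eleven visible points beside `(0, E)`. In the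
Weierstrass model with `(0, E)` at infinity we keep ten of them and the image of `(0, -E)`.
-/

set_option autoImplicit false

namespace FA.MestreRank

variable {R S : Type*} [CommRing R] [CommRing S]

/-- The leading coefficient of the quartic. -/
def cA (T : R) : R := 17256240 + 34749 * T ^ 2

/-- The cubic coefficient. -/
def cB (T : R) : R := 357838560 + 69024960 * T + 1088802 * T ^ 2 + 138996 * T ^ 3

/-- The quadratic coefficient. -/
def cC (T : R) : R :=
  -323379216 + 1073515680 * T + 114041601 * T ^ 2 + 3266406 * T ^ 3 + 138996 * T ^ 4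

/-- The linear coefficient. -/
def cD (T : R) : R :=
  -1468684224 - 646758432 * T + 799699068 * T ^ 2 + 90033282 * T ^ 3 + 2177604 * T ^ 4

/-- The square root of the constant coefficient. -/
def cE (T : R) : R := 27216 - 26982 * T - 1557 * T ^ 2

/-- The abscissae of ten points of the quartic. -/
def qx (T : R) : Fin 10 → R :=
  ![-28, -27, -1, 3, 6, -28 - 2 * T, -27 - 2 * T, -1 - 2 * T, -(2 * T), 3 - 2 * T]

/-- Their ordinates. -/
def qy (T : R) : Fin 10 → R :=
  ![-1593648 + 206118 * T - 7101 * T ^ 2, 1389960 - 201456 * T + 6705 * T ^ 2,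
    -39312 - 2322 * T + 621 * T ^ 2, -66960 - 60606 * T - 3195 * T ^ 2,
    282744 + 85248 * T + 4527 * T ^ 2, 1593648 + 206118 * T + 7101 * T ^ 2,
    -1389960 - 201456 * T - 6705 * T ^ 2, 39312 - 2322 * T - 621 * T ^ 2,
    -27216 - 26982 * T + 1557 * T ^ 2, 66960 - 60606 * T + 3195 * T ^ 2]

theorem qy_sq (T : R) (i : Fin 10) : qy T i ^ 2 =
    cA T * qx T i ^ 4 + cB T * qx T i ^ 3 + cC T * qx T i ^ 2 + cD T * qx T i + cE T ^ 2 := by
  fin_cases i <;> simp [qx, qy, cA, cB, cC, cD, cE] <;> ring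

/-- The linear coefficient of the Weierstrass model. -/
def wB (T : R) : R := cB T * cD T - 4 * cA T * cE T ^ 2

/-- The constant coefficient of the Weierstrass model. -/
def wC (T : R) : R := cA T * cD T ^ 2 - 4 * cA T * cC T * cE T ^ 2 + cB T ^ 2 * cE T ^ 2

/-- The Weierstrass model. -/
def curve (T : R) : WeierstrassCurve R := ⟨0, cC T, 0, wB T, wC T⟩

/-- The numerators of the abscissae of the eleven points. -/
def pN (T : R) : Fin 11 → R :=
  Fin.snoc (fun i => 2 * cE T * (qy T i + cE T) + cD T * qx T i)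
    (cD T ^ 2 - 4 * cE T ^ 2 * cC T)

/-- The square roots of their denominators. -/
def pW (T : R) : Fin 11 → R := Fin.snoc (qx T) (2 * cE T)

/-- The numerators of the ordinates. -/
def pM (T : R) : Fin 11 → R :=
  Fin.snoc (fun i => 4 * cE T ^ 2 * (qy T i + cE T) + 2 * cE T * cD T * qx T i
      + 2 * cE T * cC T * qx T i ^ 2 + cD T * qx T i * (qy T i + cE T)
      + cE T * cB T * qx T i ^ 3)
    (4 * cE T ^ 2 * cC T * cD T - cD T ^ 3 - 8 * cE T ^ 4 * cB T)

theorem pM_sq (T : R) (i : Fin 11) : pM T i ^ 2 = pN T i ^ 3 + cC T * pN T i ^ 2 * pW T i ^ 2 +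
    wB T * pN T i * pW T i ^ 4 + wC T * pW T i ^ 6 := by
  induction i using Fin.lastCases with
  | last => simp only [pM, pN, pW, wB, wC, Fin.snoc_last]; ring
  | cast i =>
    simp only [pM, pN, pW, wB, wC, Fin.snoc_castSucc]
    linear_combination (-8 * cE T ^ 3 * qy T i - 8 * cE T ^ 4 - 4 * cD T * cE T ^ 2 * qx T i
      + (cD T ^ 2 - 4 * cC T * cE T ^ 2) * qx T i ^ 2) * qy_sq T i

variable (φ : R →+* S) (T : R)

theorem map_coeffs : φ (cA T) = cA (φ T) ∧ φ (cB T) = cB (φ T) ∧ φ (cC T) = cC (φ T) ∧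
    φ (cD T) = cD (φ T) ∧ φ (cE T) = cE (φ T) := by
  refine ⟨?_, ?_, ?_, ?_, ?_⟩ <;> simp [cA, cB, cC, cD, cE, map_ofNat]

theorem map_qx (i : Fin 10) : φ (qx T i) = qx (φ T) i := by
  fin_cases i <;> simp [qx, map_ofNat]

theorem map_qy (i : Fin 10) : φ (qy T i) = qy (φ T) i := by
  fin_cases i <;> simp [qy, map_ofNat]

theorem map_pN (i : Fin 11) : φ (pN T i) = pN (φ T) i := by
  obtain ⟨-, -, hC, hD, hE⟩ := map_coeffs φ T
  induction i using Fin.lastCases with
  | last => simp only [pN, Fin.snoc_last]; simp [hC, hD, hE, map_ofNat]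
  | cast i => simp [pN, hD, hE, map_qx, map_qy, map_ofNat]

theorem map_pW (i : Fin 11) : φ (pW T i) = pW (φ T) i := by
  obtain ⟨-, -, -, -, hE⟩ := map_coeffs φ T
  induction i using Fin.lastCases with
  | last => simp only [pW, Fin.snoc_last]; simp [hE, map_ofNat]
  | cast i => simp [pW, map_qx]

theorem map_wB : φ (wB T) = wB (φ T) := by
  obtain ⟨hA, hB, -, hD, hE⟩ := map_coeffs φ T
  simp [wB, hA, hB, hD, hE, map_ofNat]

theorem map_wC : φ (wC T) = wC (φ T) := by
  obtain ⟨hA, hB, hC, hD, hE⟩ := map_coeffs φ T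
  simp [wC, hA, hB, hC, hD, hE, map_ofNat]

theorem map_curve : (curve T).map φ = curve (φ T) := by
  obtain ⟨-, -, hC, -, -⟩ := map_coeffs φ T
  ext <;> simp [curve, hC, map_wB, map_wC]

end FA.MestreRank
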