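import Fermat.Agent.MestreRank.Family
import Fermat.Agent.MestreRank.Classes
import Mathlib.LinearAlgebra.Matrix.Notation
import Mathlib.RingTheory.Polynomial.RationalRoot

/-!
# Eleven independent points

For `T ≡ 303` modulo the product of the primes used, the residues of the eleven points do not
depend on the member of the family, so one table of quadratic characters proves the independence
for all of them, and the irreducibility of the cubic modulo `7` excludes points of order two.
-/

set_option autoImplicit false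
set_option linter.unusedSectionVars false

noncomputable section

open WeierstrassCurve Polynomial

namespace FA.MestreRank

attribute [local instance 2000] ratDecEq

instance fact_prime_7 : Fact (Nat.Prime 7) := ⟨by decide⟩
instance fact_prime_17 : Fact (Nat.Prime 17) := ⟨by decide⟩
instance fact_prime_23 : Fact (Nat.Prime 23) := ⟨by decide⟩
instance fact_prime_29 : Fact (Nat.Prime 29) := ⟨by decide⟩
instance fact_prime_37 : Fact (Nat.Prime 37) := ⟨by decide⟩
instance fact_prime_41 : Fact (Nat.Prime 41) := ⟨by decide⟩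
instance fact_prime_43 : Fact (Nat.Prime 43) := ⟨by decide⟩
instance fact_prime_47 : Fact (Nat.Prime 47) := ⟨by decide⟩
instance fact_prime_53 : Fact (Nat.Prime 53) := ⟨by decide⟩
instance fact_prime_59 : Fact (Nat.Prime 59) := ⟨by decide⟩

/-- The product of the primes `7, 17, 23, 29, 37, 41, 43, 47, 53, 59`. -/
def modulus : ℤ := 760943778975947

/-- The parameter of a member of the family. -/
def param (s : ℤ) : ℤ := 303 + modulus * s

theorem param_cast {p : ℕ} (h : (modulus : ZMod p) = 0) (s : ℤ) : (param s : ZMod p) = 303 := by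
  simp [param, h]

/-- A member of the family. -/
abbrev member (s : ℤ) : WeierstrassCurve ℚ :=
  intCurve (cC (param s)) (wB (param s)) (wC (param s))

theorem member_eq (s : ℤ) : member s = curve (param s : ℚ) := by
  have h := map_curve (Int.castRingHom ℚ) (param s)
  simp only [eq_intCast] at h
  rw [← h]
  ext <;> simp [curve]

theorem map_member (s : ℤ) {p : ℕ} [Fact p.Prime] (h : (modulus : ZMod p) = 0) :
    (curve (param s)).map (Int.castRingHom (ZMod p)) = curve (303 : ZMod p) := by
  rw [map_curve, eq_intCast, param_cast h]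

theorem map_curve_int (s : ℤ) : (curve (param s)).map (Int.castRingHom ℚ) = member s := by
  rw [member_eq, map_curve, eq_intCast]

theorem member_Δ_ne (s : ℤ) : (member s).Δ ≠ 0 := by
  rw [← map_curve_int, map_Δ, eq_intCast, Int.cast_ne_zero]
  intro h
  have h7 := map_member s (p := 7) (by decide +kernel)
  have e := congrArg WeierstrassCurve.Δ h7
  rw [map_Δ, h, map_zero] at e
  revert e
  decide +kernel

instance member_isElliptic (s : ℤ) : (member s).IsElliptic :=
  (WeierstrassCurve.isElliptic_iff _).2 (isUnit_iff_ne_zero.2 (member_Δ_ne s))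

theorem pW_residue (s : ℤ) {p : ℕ} (h : (modulus : ZMod p) = 0) (i : Fin 11) :
    ((pW (param s) i : ℤ) : ZMod p) = pW (303 : ZMod p) i := by
  rw [← eq_intCast (Int.castRingHom (ZMod p)), map_pW, eq_intCast, param_cast h]

theorem pN_residue (s : ℤ) {p : ℕ} (h : (modulus : ZMod p) = 0) (i : Fin 11) :
    ((pN (param s) i : ℤ) : ZMod p) = pN (303 : ZMod p) i := by
  rw [← eq_intCast (Int.castRingHom (ZMod p)), map_pN, eq_intCast, param_cast h]

theorem pW_ne (s : ℤ) (i : Fin 11) : ((pW (param s) i : ℤ) : ℚ) ≠ 0 := by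
  rw [Int.cast_ne_zero]
  intro h
  have := pW_residue s (p := 59) (by decide +kernel) i
  rw [h, Int.cast_zero] at this
  clear h
  revert this i
  decide +kernel

theorem point_equation (s : ℤ) (i : Fin 11) : (member s).toAffine.Equation
    (((pN (param s) i : ℤ) : ℚ) / ((pW (param s) i : ℤ) : ℚ) ^ 2)
    (((pM (param s) i : ℤ) : ℚ) / ((pW (param s) i : ℤ) : ℚ) ^ 3) := by
  have h : ((pM (param s) i ^ 2 : ℤ) : ℚ) = _ := congrArg (Int.cast : ℤ → ℚ) (pM_sq (param s) i)
  push_cast at h
  have hw := pW_ne s i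
  rw [Affine.equation_iff]
  field_simp
  linear_combination h

/-- The points. -/
def point (s : ℤ) (i : Fin 11) : (member s).toAffine.Point :=
  .some _ _ (Affine.equation_iff_nonsingular.mp (point_equation s i))

/-- The table of quadratic characters. -/
def table : Matrix (Fin 11) (Fin 11) (ZMod 2) :=
  !![0, 1, 1, 1, 0, 1, 0, 0, 0, 1, 0;
    1, 0, 0, 1, 1, 0, 1, 1, 0, 1, 0;
    1, 0, 1, 1, 0, 0, 1, 0, 0, 1, 1;
    1, 1, 0, 0, 1, 1, 1, 1, 0, 1, 1;
    0, 1, 1, 1, 1, 0, 1, 1, 0, 1, 0;
    1, 1, 1, 0, 0, 0, 1, 1, 1, 0, 1;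
    1, 1, 0, 0, 0, 0, 0, 1, 0, 1, 0;
    1, 1, 1, 1, 0, 0, 1, 1, 0, 1, 1;
    1, 0, 1, 0, 0, 1, 1, 0, 1, 1, 1;
    0, 0, 1, 0, 1, 0, 0, 0, 1, 1, 0;
    1, 1, 1, 0, 0, 1, 1, 0, 1, 1, 1]

/-- Its inverse. -/
def tableInv : Matrix (Fin 11) (Fin 11) (ZMod 2) :=
  !![0, 0, 0, 1, 0, 0, 1, 0, 1, 1, 0;
    0, 0, 0, 0, 0, 0, 0, 0, 1, 0, 1;
    0, 1, 0, 1, 1, 0, 1, 0, 0, 1, 1;
    1, 1, 1, 1, 1, 1, 1, 1, 0, 1, 0;
    1, 0, 1, 0, 0, 0, 0, 0, 0, 1, 1;
    0, 0, 0, 1, 0, 1, 0, 0, 0, 1, 0;
    0, 0, 0, 1, 1, 1, 0, 1, 1, 0, 0;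
    0, 0, 1, 0, 0, 0, 0, 1, 1, 0, 1;
    1, 1, 0, 0, 1, 0, 1, 1, 1, 0, 0;
    0, 0, 1, 1, 0, 0, 0, 1, 1, 1, 0;
    1, 0, 1, 1, 1, 0, 1, 1, 1, 0, 1]

/-- The residual cubic of the family at `303`. -/
def resCubic (p : ℕ) (x : ZMod p) : ZMod p :=
  x ^ 3 + cC (303 : ZMod p) * x ^ 2 + wB 303 * x + wC 303

/-- The conditions checked at one row of the table. -/
def RowOK (p : ℕ) (θ : ZMod p) (k : Fin 11) : Prop :=
  resCubic p θ = 0 ∧ 3 * θ ^ 2 + 2 * cC (303 : ZMod p) * θ + wB 303 ≠ 0 ∧
    ∀ i, pN (303 : ZMod p) i - θ * pW (303 : ZMod p) i ^ 2 ≠ 0 ∧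
      (if (pN (303 : ZMod p) i - θ * pW (303 : ZMod p) i ^ 2) ^ (p / 2) = 1 then (0 : ZMod 2)
        else 1) = table k i

instance decidableRowOK (p : ℕ) [NeZero p] (θ : ZMod p) (k : Fin 11) : Decidable (RowOK p θ k) := by
  unfold RowOK; infer_instance

theorem classAt (s : ℤ) {p : ℕ} [Fact p.Prime] {θ : ZMod p} (k : Fin 11) (hp : p ≠ 2)
    (hM : (modulus : ZMod p) = 0) (h : RowOK p θ k) :
    ∃ φ : (member s).toAffine.Point →+ ZMod 2, ∀ i, φ (point s i) = table k i := by
  obtain ⟨h1, h2, h3⟩ := h
  have e := map_member s hM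
  have eA : ((cC (param s) : ℤ) : ZMod p) = cC (303 : ZMod p) := congrArg WeierstrassCurve.a₂ e
  have eB : ((wB (param s) : ℤ) : ZMod p) = wB (303 : ZMod p) := congrArg WeierstrassCurve.a₄ e
  have eC : ((wC (param s) : ℤ) : ZMod p) = wC (303 : ZMod p) := congrArg WeierstrassCurve.a₆ e
  obtain ⟨φ, hφ⟩ := exists_classHom (A := cC (param s)) (B := wB (param s)) (C := wC (param s))
    hp (θ := θ) (by rw [eA, eB, eC]; exact h1) (by rw [eA, eB]; exact h2)
  refine ⟨φ, fun i => ?_⟩
  rw [point, hφ _ _ _ _ (pW_ne s i) (by rw [pN_residue s hM, pW_residue s hM]; exact (h3 i).1),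
    pN_residue s hM, pW_residue s hM]
  exact (h3 i).2

theorem exists_classes (s : ℤ) (k : Fin 11) :
    ∃ φ : (member s).toAffine.Point →+ ZMod 2, ∀ i, φ (point s i) = table k i := by
  fin_cases k
  all_goals first
    | exact classAt s (p := 17) (θ := 7) 0 (by decide) (by decide) (by decide +kernel)
    | exact classAt s (p := 23) (θ := 11) 1 (by decide) (by decide) (by decide +kernel)
    | exact classAt s (p := 23) (θ := 21) 2 (by decide) (by decide) (by decide +kernel)
    | exact classAt s (p := 29) (θ := 12) 3 (by decide) (by decide) (by decide +kernel)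
    | exact classAt s (p := 37) (θ := 9) 4 (by decide) (by decide) (by decide +kernel)
    | exact classAt s (p := 37) (θ := 36) 5 (by decide) (by decide) (by decide +kernel)
    | exact classAt s (p := 41) (θ := 20) 6 (by decide) (by decide) (by decide +kernel)
    | exact classAt s (p := 43) (θ := 40) 7 (by decide) (by decide) (by decide +kernel)
    | exact classAt s (p := 47) (θ := 45) 8 (by decide) (by decide) (by decide +kernel)
    | exact classAt s (p := 53) (θ := 33) 9 (by decide) (by decide) (by decide +kernel)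
    | exact classAt s (p := 59) (θ := 6) 10 (by decide) (by decide) (by decide +kernel)

theorem table_inverse (i j : Fin 11) :
    ∑ k, tableInv i k * table k j = if i = j then 1 else 0 := by
  revert i j
  decide +kernel

theorem no_two_torsion (s : ℤ) (P : (member s).toAffine.Point) (h : 2 • P = 0) : P = 0 := by
  rcases P with _ | ⟨x, y, hP⟩
  · rfl
  exfalso
  rw [two_nsmul, add_eq_zero_iff_eq_neg, Affine.Point.neg_some, Affine.Point.some.injEq] at h
  have hy : y = 0 := by
    have := h.2
    simp [Affine.negY] at this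
    linarith
  have he := (Affine.equation_iff x y).1 hP.1
  subst hy
  have hroot : aeval x (Polynomial.X ^ 3 + Polynomial.C (cC (param s)) * Polynomial.X ^ 2 +
      Polynomial.C (wB (param s)) * Polynomial.X + Polynomial.C (wC (param s)) : ℤ[X]) = 0 := by
    simp at he ⊢
    linear_combination -he
  obtain ⟨r, rfl, -⟩ := exists_integer_of_is_root_of_monic (by monicity!) hroot
  have e := map_member s (p := 7) (by decide +kernel)
  have h7 : resCubic 7 (r : ZMod 7) = 0 := by
    have hr : r ^ 3 + cC (param s) * r ^ 2 + wB (param s) * r + wC (param s) = 0 := by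
      simp at hroot
      exact_mod_cast hroot
    have := congrArg (Int.cast : ℤ → ZMod 7) hr
    push_cast at this
    rw [show ((cC (param s) : ℤ) : ZMod 7) = cC (303 : ZMod 7) from congrArg WeierstrassCurve.a₂ e,
      show ((wB (param s) : ℤ) : ZMod 7) = wB (303 : ZMod 7) from congrArg WeierstrassCurve.a₄ e,
      show ((wC (param s) : ℤ) : ZMod 7) = wC (303 : ZMod 7) from congrArg WeierstrassCurve.a₆ e]
      at this
    exact this
  revert h7
  generalize (r : ZMod 7) = z
  revert z
  decide +kernel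

/-- **Eleven independent points on every member.** -/
theorem linearIndependent_point (s : ℤ) : LinearIndependent ℤ (point s) := by
  choose φ hφ using exists_classes s
  refine linearIndependent_of_classes (no_two_torsion s) _ φ tableInv fun i j => ?_
  simp only [hφ]
  convert table_inverse i j

/-- **Each `j`-invariant belongs to finitely many members.** -/
theorem infinite_range_j : (Set.range fun s : ℤ => (member s).j).Infinite := by
  intro hfin
  set E : WeierstrassCurve ℚ[X] := curve (303 + (modulus : ℚ[X]) * Polynomial.X) with hE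
  have hev : ∀ s : ℤ, E.map (evalRingHom (s : ℚ)) = member s := fun s => by
    rw [hE, map_curve, member_eq]
    congr 1
    simp [param, Polynomial.eval_ofNat]
  have hsub : ∀ v : ℚ, {s : ℤ | (member s).j = v}.Finite := fun v => by
    set F : ℚ[X] := E.c₄ ^ 3 - Polynomial.C v * E.Δ with hF
    have hz : ∀ s : ℤ, F.eval (s : ℚ) = (member s).c₄ ^ 3 - v * (member s).Δ := fun s => by
      rw [← hev, map_c₄, map_Δ, hF]; simp
    have hj : ∀ s : ℤ, (member s).j = v → F.eval (s : ℚ) = 0 := fun s e => by
      rw [hz, ← e, WeierstrassCurve.j, Units.val_inv_eq_inv_val, coe_Δ']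
      field_simp [member_Δ_ne s]
      ring
    by_cases h0 : F = 0
    · exfalso
      have he : ∀ s : ℤ, (member s).c₄ ^ 3 = v * (member s).Δ := fun s => by
        rw [← sub_eq_zero, ← hz, h0, Polynomial.eval_zero]
      have hcross : (member 0).c₄ ^ 3 * (member 1).Δ = (member 1).c₄ ^ 3 * (member 0).Δ := by
        rw [he, he]; ring
      rw [← map_curve_int, ← map_curve_int, map_c₄, map_c₄, map_Δ, map_Δ] at hcross
      simp only [eq_intCast] at hcross
      norm_cast at hcross
    exact ((finite_setOfPred_isRoot h0).preimage Int.cast_injective.injOn).subset hj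
  exact Set.infinite_univ (α := ℤ) ((hfin.biUnion fun v _ => hsub v).subset fun s _ =>
    Set.mem_biUnion ⟨s, rfl⟩ rfl)

end FA.MestreRank
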